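import Fermat.Agent.H66.ESD.GaussLattice2
import Fermat.Agent.H66.ESD.GaussBar

/-!
# P-ORD, block B1-LATT (helper58): the single-valuation lattice property of the Gauss ring

For every level `N` (no condition `ℓ ∤ N`), every valuation ring `A` of `ℚ̄` over `ℓ` and every
non-constant `f ∈ F_L = ℚ̄(X₀(N))` there are `α ≠ 0`, `β` with `α f + β` in the Gauss ring
`gaussOBar N A` and with NON-CONSTANT reduction.  This is the landed lattice reduction (G3)
`Fermat.Agent.H66.gaussLattice` on the plane `span {1, f}`.
-/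

set_option autoImplicit false
set_option synthInstance.maxHeartbeats 400000
set_option linter.unusedSectionVars false

open AlgebraicCurve ModularCurve

namespace Fermat.Agent.H58.ORD

noncomputable section

/-- The plane spanned by `1` and a non-constant `f`. -/
theorem gl_plane {K F : Type*} [Field K] [Field F] [Algebra K F] (f : F)
    (hf : ∀ c : K, f ≠ algebraMap K F c) :
    ∃ V : Submodule K F, FiniteDimensional K ↥V ∧ Module.finrank K ↥V = 2 ∧
      ∀ x ∈ V, ∃ α β : K, algebraMap K F α * f + algebraMap K F β = x := by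
  classical
  have hli : LinearIndependent K ![(1 : F), f] := by
    rw [LinearIndependent.pair_iff]
    intro s t hst
    by_cases ht : t = 0
    · subst ht
      rw [zero_smul, add_zero] at hst
      refine ⟨?_, rfl⟩
      by_contra hs
      have h1 : (1 : F) = 0 := by
        have := congrArg (fun x => s⁻¹ • x) hst
        simp only [smul_smul, inv_mul_cancel₀ hs, one_smul, smul_zero] at this
        exact this
      exact one_ne_zero h1
    · exfalso
      apply hf (-(t⁻¹ * s))
      have h1 : t • f = -(s • (1 : F)) := by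
        rw [eq_neg_iff_add_eq_zero, add_comm]; exact hst
      have h2 : f = t⁻¹ • (t • f) := by rw [smul_smul, inv_mul_cancel₀ ht, one_smul]
      rw [h2, h1, smul_neg, smul_smul, Algebra.algebraMap_eq_smul_one, neg_smul]
  refine ⟨Submodule.span K (Set.range ![(1 : F), f]),
    FiniteDimensional.span_of_finite _ (Set.finite_range _), ?_, ?_⟩
  · rw [finrank_span_eq_card hli, Fintype.card_fin]
  · intro x hx
    rw [Submodule.mem_span_range_iff_exists_fun] at hx
    obtain ⟨c, hc⟩ := hx
    rw [Fin.sum_univ_two] at hc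
    simp only [Matrix.cons_val_zero, Matrix.cons_val_one] at hc
    refine ⟨c 1, c 0, ?_⟩
    rw [← hc, Algebra.smul_def, Algebra.smul_def, mul_one, add_comm]

/-- Among `n ≥ 2` linearly independent vectors, one is not a multiple of `e`. -/
theorem gl_exists_nonconst {k M : Type*} [Field k] [AddCommMonoid M] [Module k M] {n : ℕ}
    (hn : 2 ≤ n) (v : Fin n → M) (hv : LinearIndependent k v) (e : M) :
    ∃ i, ¬ ∃ κ : k, v i = κ • e := by
  by_contra hcon
  have h : ∀ i, ∃ κ : k, v i = κ • e := by
    intro i
    by_contra hno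
    exact hcon ⟨i, hno⟩
  choose κ hκ using h
  have hfun : v = (LinearMap.toSpanSingleton k M e) ∘ κ := by
    funext i
    rw [hκ i]
    rfl
  rw [hfun] at hv
  have hκli : LinearIndependent k κ := LinearIndependent.of_comp _ hv
  have hcard := hκli.fintype_card_le_finrank
  rw [Fintype.card_fin, Module.finrank_self] at hcard
  omega

/-- constants of `k((q))` are the multiples of `1` -/
theorem gl_algebraMap_eq_smul_one {k : Type*} [Field k] (κ : k) :
    algebraMap k (LaurentSeries k) κ = κ • (1 : LaurentSeries k) := by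
  rw [ModularCurve.algebraMap_laurentSeries_eq_single, ← HahnSeries.C_apply,
    ← mul_one (HahnSeries.C κ), HahnSeries.C_mul_eq_smul]

/-- **Single-valuation lattice property of the Gauss ring at `∞`.** -/
theorem gauss_lattice_one (N : ℕ) [NeZero N] (ℓ : ℕ) [Fact ℓ.Prime]
    (A : ValuationSubring (AlgebraicClosure ℚ)) (hA : A.LiesOverPrime ℓ)
    (f : ↥(modularFunctionFieldBar N))
    (hf : ∀ c : AlgebraicClosure ℚ,
      f ≠ algebraMap (AlgebraicClosure ℚ) ↥(modularFunctionFieldBar N) c) :
    ∃ (α β : AlgebraicClosure ℚ)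
      (h : algebraMap (AlgebraicClosure ℚ) ↥(modularFunctionFieldBar N) α * f +
        algebraMap (AlgebraicClosure ℚ) ↥(modularFunctionFieldBar N) β ∈
          Fermat.Agent.H66.gaussOBar N A),
      α ≠ 0 ∧ ¬ ∃ κ : IsLocalRing.ResidueField ↥A,
        Fermat.Agent.H66.gaussRedBar N A ⟨_, h⟩ =
          algebraMap (IsLocalRing.ResidueField ↥A)
            (LaurentSeries (IsLocalRing.ResidueField ↥A)) κ := by
  obtain ⟨V, hfin, hrank, hVmem⟩ := gl_plane f hf
  obtain ⟨u, huV, hlin⟩ := Fermat.Agent.H66.gaussLattice N ℓ A hA V hfin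
  obtain ⟨i, hi'⟩ := gl_exists_nonconst (le_of_eq hrank.symm) _ hlin 1
  have hi : ¬ ∃ κ : IsLocalRing.ResidueField ↥A,
      Fermat.Agent.H66.gaussRedBar N A (u i) =
        algebraMap (IsLocalRing.ResidueField ↥A)
          (LaurentSeries (IsLocalRing.ResidueField ↥A)) κ := by
    rintro ⟨κ, hκ⟩
    exact hi' ⟨κ, hκ.trans (gl_algebraMap_eq_smul_one κ)⟩
  obtain ⟨α, β, hform⟩ := hVmem _ (huV i)
  have hmem' : algebraMap (AlgebraicClosure ℚ) ↥(modularFunctionFieldBar N) α * f +
      algebraMap (AlgebraicClosure ℚ) ↥(modularFunctionFieldBar N) β ∈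
        Fermat.Agent.H66.gaussOBar N A := by
    rw [hform]; exact (u i).2
  have hsub : (⟨_, hmem'⟩ : ↥(Fermat.Agent.H66.gaussOBar N A)) = u i := Subtype.ext hform
  refine ⟨α, β, hmem', ?_, ?_⟩
  · intro h0
    apply hi
    have hconst : ((u i : ↥(Fermat.Agent.H66.gaussOBar N A)) : ↥(modularFunctionFieldBar N)) =
        algebraMap (AlgebraicClosure ℚ) ↥(modularFunctionFieldBar N) β := by
      rw [← hform, h0, map_zero, zero_mul, zero_add]
    have hcA : β ∈ A := by
      rw [← Fermat.Agent.H66.algebraMap_mem_gaussOBar_iff N A β, ← hconst]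
      exact (u i).2
    refine ⟨IsLocalRing.residue ↥A ⟨β, hcA⟩, ?_⟩
    rw [← Fermat.Agent.H66.gaussRedBar_algebraMap N A hcA]
    congr 1
    exact Subtype.ext hconst
  · rw [hsub]
    exact hi

end

end Fermat.Agent.H58.ORD
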