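import Mathlib
import Fermat.Prelude.Def_ModularCurve_GenusNumerics
import Fermat.Agent.H26.DedekindPsi

/-!
# P-ORD, block B1 (helper58): arithmetic of the genus formula along `M ↦ M p`

For `4 ∣ M`, `p` an odd prime, `p ∤ M`:
`genusFormula (M p) + 1 - 2 genusFormula M = (p - 1) ψ(M) / 12 > 0`
(`ν₂ = ν₃ = 0` at both levels, `ψ(M p) = (p + 1) ψ(M)`, `c(M p) = 2 c(M)`).
This is the number of supersingular points (nodes of the special fibre of `X₀(M p)` at `p`).
-/

set_option autoImplicit false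

namespace Fermat.Agent.H58.ORD

open ModularCurve

/-- `x² + 1 = 0` has no solution modulo a multiple of `4`. -/
theorem ga_nuTwo_eq_zero {N : ℕ} (h4 : 4 ∣ N) : nuTwo N = 0 := by
  unfold nuTwo
  rw [Nat.card_eq_zero]
  left
  refine ⟨fun x => ?_⟩
  obtain ⟨x, hx⟩ := x
  have h := congrArg (ZMod.castHom h4 (ZMod 4)) hx
  rw [map_add, map_pow, map_one, map_zero] at h
  generalize (ZMod.castHom h4 (ZMod 4)) x = y at h
  revert h
  revert y
  decide

/-- `x² + x + 1 = 0` has no solution modulo an even number. -/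
theorem ga_nuThree_eq_zero {N : ℕ} (h2 : 2 ∣ N) : nuThree N = 0 := by
  unfold nuThree
  rw [Nat.card_eq_zero]
  left
  refine ⟨fun x => ?_⟩
  obtain ⟨x, hx⟩ := x
  have h := congrArg (ZMod.castHom h2 (ZMod 2)) hx
  rw [map_add, map_add, map_pow, map_one, map_zero] at h
  generalize (ZMod.castHom h2 (ZMod 2)) x = y at h
  revert h
  revert y
  decide

/-- divisors of `n p` for a prime `p ∤ n` -/
theorem ga_divisors_mul_prime (n p : ℕ) (hn : 0 < n) (hp : p.Prime) (h : ¬ p ∣ n) :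
    (n * p).divisors = n.divisors ∪ n.divisors.image (· * p) := by
  ext d
  simp only [Nat.mem_divisors, Finset.mem_union, Finset.mem_image]
  constructor
  · rintro ⟨hd, -⟩
    by_cases hpd : p ∣ d
    · right
      obtain ⟨d', rfl⟩ := hpd
      refine ⟨d', ⟨?_, hn.ne'⟩, mul_comm _ _⟩
      have : p * d' ∣ p * n := by rwa [mul_comm p n]
      exact (Nat.mul_dvd_mul_iff_left hp.pos).mp this
    · left
      have hcop : Nat.Coprime d p := by
        rw [Nat.coprime_comm, hp.coprime_iff_not_dvd]; exact hpd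
      exact ⟨hcop.dvd_of_dvd_mul_right hd, hn.ne'⟩
  · rintro (⟨hd, -⟩ | ⟨d', ⟨hd', -⟩, rfl⟩)
    · exact ⟨Dvd.dvd.mul_right hd p, (Nat.mul_pos hn hp.pos).ne'⟩
    · exact ⟨Nat.mul_dvd_mul_right hd' p, (Nat.mul_pos hn hp.pos).ne'⟩

theorem ga_disjoint_divisors (n p : ℕ) (hp : p.Prime) (h : ¬ p ∣ n) :
    Disjoint n.divisors (n.divisors.image (· * p)) := by
  rw [Finset.disjoint_left]
  intro d hd hd'
  simp only [Nat.mem_divisors, Finset.mem_image] at hd hd'
  obtain ⟨d', -, rfl⟩ := hd'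
  exact h (dvd_trans (Dvd.intro_left d' rfl) hd.1)

/-- `c(n p) = 2 c(n)` for a prime `p ∤ n`. -/
theorem ga_cuspCount_mul_prime (n p : ℕ) (hn : 0 < n) (hp : p.Prime) (h : ¬ p ∣ n) :
    cuspCount (n * p) = 2 * cuspCount n := by
  unfold cuspCount
  rw [ga_divisors_mul_prime n p hn hp h, Finset.sum_union (ga_disjoint_divisors n p hp h),
    Finset.sum_image (fun a _ b _ hab => Nat.eq_of_mul_eq_mul_right hp.pos hab), two_mul]
  congr 1
  · refine Finset.sum_congr rfl fun d hd => ?_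
    rw [Nat.mem_divisors] at hd
    obtain ⟨e, he⟩ := hd.1
    have hd0 : 0 < d := Nat.pos_of_ne_zero (by rintro rfl; simp at he; exact hn.ne' he)
    have hcop : Nat.Coprime d p := by
      rw [Nat.coprime_comm, hp.coprime_iff_not_dvd]
      exact fun hpd => h (dvd_trans hpd hd.1)
    have h1 : n * p / d = n / d * p := by
      rw [he, mul_assoc, Nat.mul_div_cancel_left _ hd0, Nat.mul_div_cancel_left _ hd0]
    rw [h1, Nat.Coprime.gcd_mul_right_cancel_right _ hcop.symm]
  · refine Finset.sum_congr rfl fun d hd => ?_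
    rw [Nat.mem_divisors] at hd
    obtain ⟨e, he⟩ := hd.1
    have hd0 : 0 < d := Nat.pos_of_ne_zero (by rintro rfl; simp at he; exact hn.ne' he)
    have hcop : Nat.Coprime (n / d) p := by
      rw [Nat.coprime_comm, hp.coprime_iff_not_dvd]
      exact fun hpd => h (dvd_trans hpd (Nat.div_dvd_of_dvd hd.1))
    have h1 : n * p / (d * p) = n / d := by
      rw [Nat.mul_div_mul_right _ _ hp.pos]
    rw [h1, Nat.Coprime.gcd_mul_right_cancel _ hcop.symm]

theorem ga_dedekindPsi_pos {n : ℕ} (hn : 0 < n) : 0 < dedekindPsi n := by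
  unfold dedekindPsi
  have h1 : (1 : ℕ) ∈ n.divisors.filter Squarefree := by
    simp [hn.ne']
  have h2 : n / 1 ≤ ∑ d ∈ n.divisors with Squarefree d, n / d :=
    Finset.single_le_sum (f := fun d => n / d) (fun _ _ => Nat.zero_le _) h1
  rw [Nat.div_one] at h2
  exact lt_of_lt_of_le hn h2

/-- **The count of the nodes in the genus formula.** -/
theorem ga_genusFormula_mul_prime (M p : ℕ) (hM : 0 < M) (h4 : 4 ∣ M) (hp : p.Prime)
    (hpM : ¬ p ∣ M) :
    genusFormula (M * p) + 1 - 2 * genusFormula M = ((p : ℚ) - 1) * (dedekindPsi M : ℚ) / 12 := by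
  have h4' : 4 ∣ M * p := Dvd.dvd.mul_right h4 p
  have h2 : 2 ∣ M := dvd_trans (by norm_num) h4
  have h2' : 2 ∣ M * p := Dvd.dvd.mul_right h2 p
  unfold genusFormula
  rw [ga_nuTwo_eq_zero h4, ga_nuTwo_eq_zero h4', ga_nuThree_eq_zero h2, ga_nuThree_eq_zero h2',
    ga_cuspCount_mul_prime M p hM hp hpM,
    Fermat.Agent.H26.dedekindPsi_mul_prime_of_not_dvd M p hM hp hpM]
  push_cast
  ring

/-- **`2 g(M) < g(M p) + 1`** for `4 ∣ M`, `p` an odd prime, `p ∤ M`. -/
theorem ga_two_mul_genusFormula_lt (M p : ℕ) (hM : 0 < M) (h4 : 4 ∣ M) (hp : p.Prime)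
    (hpM : ¬ p ∣ M) : 2 * genusFormula M < genusFormula (M * p) + 1 := by
  have h := ga_genusFormula_mul_prime M p hM h4 hp hpM
  have hpos : (0 : ℚ) < ((p : ℚ) - 1) * (dedekindPsi M : ℚ) / 12 := by
    have h1 : (1 : ℚ) < (p : ℚ) := by exact_mod_cast hp.one_lt
    have h2 : (0 : ℚ) < (dedekindPsi M : ℚ) := by exact_mod_cast ga_dedekindPsi_pos hM
    have h3 : (0 : ℚ) < (p : ℚ) - 1 := by linarith
    positivity
  linarith

end Fermat.Agent.H58.ORD
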