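import Fermat.Agent.H17.ESD.BranchJ
import Fermat.Agent.H56.RH.HurwitzFinal
import Fermat.Agent.H58.RR.Modular
import Fermat.Agent.H58.RR.ESD
import Fermat.Agent.H85.ForH23

/-!
# P-ORD, block B1 (helper58): the Riemann genus of `X₀(N)` is given by the genus formula

`genusFF ℚ̄ (ℚ̄(X₀(N))) = dim H¹(0)` (the genus of Riemann's theorem, used by all reduction
arguments) equals `ModularCurve.genusFormula N`.  The landed S24 is about the degree of the
canonical divisor; here the same local data of `j` (P-GENUS: analytic data + local counting) are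
fed into the landed Riemann-Hurwitz formula for the Riemann genus
(`Fermat.Agent.H56.RH.hurwitz`).

* `hurwitz_localData` : abstract form, `2 g - 2 + 2 n = ∑_{a ∈ S} (n - #orbits) + (n - #orbits_∞)`;
* `genusFF_eq_genusFormula` : `(genusFF ℚ̄ F_N : ℚ) = genusFormula N`.
-/

set_option autoImplicit false
set_option synthInstance.maxHeartbeats 400000
set_option linter.unusedSectionVars false
set_option linter.style.haveILetI false

noncomputable section

open AlgebraicCurve IntermediateField

namespace Fermat.Agent.H58.ORD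

open Fermat.Agent.H23 Fermat.Agent.H27.ESD Fermat.Agent.H17.ESD

section Abstract

variable {K F : Type} [Field K] [Field F] [Algebra K F] [IsAlgClosed K] [CharZero K]

/-- The local counting over the zeros of one `y`. -/
theorem gb_point (x : F) (hfin : FiniteDimensional K⟮x⟯ F)
    (y : F) (hy : Transcendental K y) (hyx : K⟮y⟯ = K⟮x⟯)
    (L : LocalDatum K F y) (hcard : Fintype.card L.I = Module.finrank K⟮x⟯ F) :
    (∀ v : Place K F, v.deg = 1) ∧
    {v : Place K F | 0 < v.ord y}.Finite ∧
    ∑ᶠ v ∈ {v : Place K F | 0 < v.ord y}, (v.ord y - 1)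
      = (Module.finrank K⟮x⟯ F : ℤ) - numOrbits L.ε := by
  have hfiny : FiniteDimensional K⟮y⟯ F := by rw [hyx]; exact hfin
  have hrank : Module.finrank K⟮y⟯ F = Module.finrank K⟮x⟯ F := by rw [hyx]
  obtain ⟨hdeg, hVfin, hsum⟩ := Fermat.Agent.H29.fundamentalIdentity K F y hy hfiny
  rw [hrank] at hsum
  have hsum' : ∑ᶠ v ∈ {v : Place K F | 0 < v.ord y}, v.ord y = (Fintype.card L.I : ℤ) := by
    rw [hsum, hcard]
  obtain ⟨-, hcount⟩ := Fermat.Agent.H85.localCounting K F y L hdeg hVfin hsum'
  rw [hcard] at hcount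
  exact ⟨hdeg, hVfin, hcount⟩

/-- **Riemann-Hurwitz for the Riemann genus, in terms of local data.** -/
theorem hurwitz_localData (g : ℕ) (hpkg : RiemannPackage K F g)
    (x : F) (hx : Transcendental K x) (hfin : FiniteDimensional K⟮x⟯ F)
    (S : Finset K) (L : ∀ a : K, LocalDatum K F (x - algebraMap K F a))
    (Linf : LocalDatum K F x⁻¹)
    (hcard : ∀ a, Fintype.card (L a).I = Module.finrank K⟮x⟯ F)
    (hcardinf : Fintype.card Linf.I = Module.finrank K⟮x⟯ F)
    (hS : ∀ a, a ∉ S → (L a).ε = 1) :
    2 * (g : ℤ) - 2 + 2 * (Module.finrank K⟮x⟯ F : ℤ) =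
      ∑ a ∈ S, ((Module.finrank K⟮x⟯ F : ℤ) - numOrbits (L a).ε)
        + ((Module.finrank K⟮x⟯ F : ℤ) - numOrbits Linf.ε) := by
  classical
  have P := fun a : K => gb_point x hfin (x - algebraMap K F a)
    (transcendental_sub_const hx a) (adjoin_sub_const x a) (L a) (hcard a)
  have Pinf := gb_point x hfin x⁻¹ (transcendental_inv hx) (adjoin_inv x) Linf hcardinf
  have hdeg : ∀ v : Place K F, v.deg = 1 := Pinf.1
  set n : ℤ := (Module.finrank K⟮x⟯ F : ℤ) with hn
  -- separability
  haveI : CharZero K⟮x⟯ := charZero_of_injective_algebraMap (algebraMap K K⟮x⟯).injective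
  haveI : Algebra.IsSeparable K⟮x⟯ F := inferInstance
  obtain ⟨-, -, htame⟩ := Fermat.Agent.H56.RH.hurwitz K F x hx hfin inferInstance g hpkg
  -- the ramification function
  set r : Place K F → ℤ := fun v => (ramIdx x v : ℤ) - 1 with hr
  have hr_fin : ∀ (a : K) (v : Place K F), 0 < v.ord (x - algebraMap K F a) →
      r v = v.ord (x - algebraMap K F a) - 1 := by
    intro a v hv
    show (ramIdx x v : ℤ) - 1 = _
    rw [ramIdx_of_ord_sub_pos v x hv, Int.toNat_of_nonneg hv.le]
  have hr_inf : ∀ v : Place K F, 0 < v.ord x⁻¹ → r v = v.ord x⁻¹ - 1 := by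
    intro v hv
    have hneg : v.ord x < 0 := by
      rw [v.ord_inv] at hv; omega
    show (ramIdx x v : ℤ) - 1 = _
    rw [ramIdx_of_ord_neg v x hneg, Int.toNat_of_nonneg (by omega), v.ord_inv]
  -- tameness
  have htame' : ∀ v : Place K F, ((ramIdx x v : ℕ) : K) ≠ 0 := by
    intro v
    have hpos : 0 < ramIdx x v := by
      rcases exists_point hdeg hx v with hinf | ⟨a, ha⟩
      · have h1 := hr_inf v hinf
        have h2 : (ramIdx x v : ℤ) = v.ord x⁻¹ := by
          have : (ramIdx x v : ℤ) - 1 = v.ord x⁻¹ - 1 := h1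
          omega
        have : 0 < (ramIdx x v : ℤ) := by rw [h2]; exact hinf
        exact_mod_cast this
      · have h1 := hr_fin a v ha
        have h2 : (ramIdx x v : ℤ) = v.ord (x - algebraMap K F a) := by
          have : (ramIdx x v : ℤ) - 1 = v.ord (x - algebraMap K F a) - 1 := h1
          omega
        have : 0 < (ramIdx x v : ℤ) := by rw [h2]; exact ha
        exact_mod_cast this
    exact Nat.cast_ne_zero.mpr hpos.ne'
  have hH := htame htame'
  rw [← hn] at hH
  rw [← hH]
  -- the finite sets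
  set V : K → Finset (Place K F) := fun a => (P a).2.1.toFinset with hV
  set Vinf : Finset (Place K F) := Pinf.2.1.toFinset with hVinf
  have hmemV : ∀ a v, v ∈ V a ↔ 0 < v.ord (x - algebraMap K F a) := by
    intro a v; simp [hV]
  have hmemVinf : ∀ v, v ∈ Vinf ↔ 0 < v.ord x⁻¹ := by
    intro v; simp [hVinf]
  -- unramified outside `S`
  have hunram : ∀ a, a ∉ S → ∀ v ∈ V a, r v = 0 := by
    intro a ha v hv
    have hsum := (P a).2.2
    rw [hS a ha] at hsum
    have horb : (numOrbits (1 : Equiv.Perm (L a).I) : ℤ) = n := by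
      have h1 : numOrbits (1 : Equiv.Perm (L a).I) = Fintype.card (L a).I := by
        unfold numOrbits
        rw [← Nat.card_eq_fintype_card]
        refine Nat.card_congr (Equiv.symm ?_)
        refine Equiv.ofBijective (Quotient.mk _) ⟨?_, Quotient.mk_surjective⟩
        intro i j hij
        have := Quotient.exact hij
        obtain ⟨k, hk⟩ := this
        simpa using hk
      rw [h1, hcard a]
    rw [horb, sub_self, finsum_mem_eq_finite_toFinset_sum _ (P a).2.1] at hsum
    have hnonneg : ∀ w ∈ (P a).2.1.toFinset, 0 ≤ w.ord (x - algebraMap K F a) - 1 := by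
      intro w hw
      have : 0 < w.ord (x - algebraMap K F a) := by simpa using hw
      omega
    have hzero := (Finset.sum_eq_zero_iff_of_nonneg hnonneg).mp hsum v hv
    rw [hr_fin a v ((hmemV a v).mp hv)]
    exact hzero
  set W : Finset (Place K F) := (S.biUnion V) ∪ Vinf with hW
  have hsupp : Function.support r ⊆ (W : Set (Place K F)) := by
    intro v hv
    rw [Function.mem_support] at hv
    rcases exists_point hdeg hx v with hinf | ⟨a, ha⟩
    · exact Finset.mem_coe.mpr (Finset.mem_union_right _ ((hmemVinf v).mpr hinf))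
    · by_cases haS : a ∈ S
      · exact Finset.mem_coe.mpr
          (Finset.mem_union_left _ (Finset.mem_biUnion.mpr ⟨a, haS, (hmemV a v).mpr ha⟩))
      · exact absurd (hunram a haS v ((hmemV a v).mpr ha)) hv
  have hsum1 : ∑ᶠ v : Place K F, ((ramIdx x v : ℤ) - 1) = ∑ v ∈ W, r v :=
    finsum_eq_sum_of_support_subset r hsupp
  have hdisj1 : Disjoint (S.biUnion V) Vinf := by
    rw [Finset.disjoint_left]
    intro v hv hv'
    obtain ⟨a, _, ha⟩ := Finset.mem_biUnion.mp hv
    exact not_pos_inv_pos v x ((hmemV a v).mp ha) ((hmemVinf v).mp hv')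
  have hdisj2 : (S : Set K).PairwiseDisjoint V := by
    intro a _ b _ hab
    show Disjoint (V a) (V b)
    rw [Finset.disjoint_left]
    intro v hva hvb
    exact not_pos_pos_of_ne v x hab ((hmemV a v).mp hva) ((hmemV b v).mp hvb)
  rw [hsum1, hW, Finset.sum_union hdisj1, Finset.sum_biUnion hdisj2]
  have hA : ∀ a ∈ S, ∑ v ∈ V a, r v = n - numOrbits (L a).ε := by
    intro a _
    have hsum := (P a).2.2
    rw [finsum_mem_eq_finite_toFinset_sum _ (P a).2.1] at hsum
    rw [← hsum]
    exact Finset.sum_congr rfl fun v hv => hr_fin a v ((hmemV a v).mp hv)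
  have hB : ∑ v ∈ Vinf, r v = n - numOrbits Linf.ε := by
    have hsum := Pinf.2.2
    rw [finsum_mem_eq_finite_toFinset_sum _ Pinf.2.1] at hsum
    rw [← hsum]
    exact Finset.sum_congr rfl fun v hv => hr_inf v ((hmemVinf v).mp hv)
  rw [Finset.sum_congr rfl hA, hB]

end Abstract

/-- **The Riemann genus of `X₀(N)` over `ℚ̄` is given by the genus formula.** -/
theorem genusFF_eq_genusFormula (N : ℕ) [NeZero N] :
    (genusFF (AlgebraicClosure ℚ) ↥(ModularCurve.modularFunctionFieldBar N) : ℚ) =
      ModularCurve.genusFormula N := by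
  classical
  have hMOD : ModularDataStatement N :=
    modularData_of_packages (analyticStatement_holds N) (degreeStatement_holds N)
      (Fermat.Agent.H85.cosetCombinatorics N)
  obtain ⟨x, hx, hfin, hdeg, a₀, a₁, ha, L, Linf, hL, hLinf, hε, h3, h2, hc⟩ := hMOD
  have hS : ∀ a, a ∉ ({a₀, a₁} : Finset (AlgebraicClosure ℚ)) → (L a).ε = 1 := by
    intro a haS
    simp only [Finset.mem_insert, Finset.mem_singleton, not_or] at haS
    exact hε a haS.1 haS.2
  have hpkg : RiemannPackage (AlgebraicClosure ℚ) ↥(ModularCurve.modularFunctionFieldBar N)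
      (genusFF (AlgebraicClosure ℚ) ↥(ModularCurve.modularFunctionFieldBar N)) :=
    Fermat.Agent.H58.riemannPackage_of_rrHyp
      (Fermat.Agent.H58.rrHyp_modularFunctionFieldBar N)
  have key := hurwitz_localData _ hpkg x hx hfin {a₀, a₁} L Linf
    (fun a => (hL a).trans hdeg.symm) (hLinf.trans hdeg.symm) hS
  rw [Finset.sum_pair ha, hdeg] at key
  have h3' : (3 : ℚ) * numOrbits (L a₀).ε
      = ModularCurve.dedekindPsi N + 2 * ModularCurve.nuThree N := by exact_mod_cast h3
  have h2' : (2 : ℚ) * numOrbits (L a₁).ε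
      = ModularCurve.dedekindPsi N + ModularCurve.nuTwo N := by exact_mod_cast h2
  have hc' : (numOrbits Linf.ε : ℚ) = ModularCurve.cuspCount N := by exact_mod_cast hc
  have keyQ : (2 : ℚ) * (genusFF (AlgebraicClosure ℚ)
      ↥(ModularCurve.modularFunctionFieldBar N) : ℚ) - 2 + 2 * (ModularCurve.dedekindPsi N : ℚ) =
      ((ModularCurve.dedekindPsi N : ℚ) - numOrbits (L a₀).ε) +
        ((ModularCurve.dedekindPsi N : ℚ) - numOrbits (L a₁).ε) +
        ((ModularCurve.dedekindPsi N : ℚ) - numOrbits Linf.ε) := by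
    exact_mod_cast key
  unfold ModularCurve.genusFormula
  linarith

end Fermat.Agent.H58.ORD

end
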