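import Fermat.Agent.H92.ORD.NodalAsm
import Fermat.Agent.H18.ExTame
import Fermat.Agent.H27.ESD.Interfaces1c
import Fermat.Agent.H58.ORD.GenusBridge
import Fermat.Agent.H58.ORD.GenusArith

/-!
# P-ORD, block B1 (helper58): the special fibre of `X₀(M p)` has at least one node

For the concrete nodal data `nmG` of helper84 (`p` odd, `p ∤ M`, `4 ∣ M`): the node count
inequality **[NC]** `g_N + 1 ≤ g_∞ + g_0 + #nodes` (helper87 `nodalNC`, or the equality
`NmGenusEqStatement`) forces `#nodes ≥ 1`, because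

* `g_∞ = g_0 = genusFF k (F_k(M)) ≤ genusFF ℚ̄ (F(M))` (RANGE + the unconditional semicontinuity
  `Fermat.Agent.H18.genusFF_modL_le`),
* `genusFF ℚ̄ (F(N)) = genusFormula N` (`genusFF_eq_genusFormula`), and
* `2 genusFormula M < genusFormula (M p) + 1` (`ga_two_mul_genusFormula_lt`).
-/

set_option autoImplicit false
set_option linter.unusedSectionVars false
set_option linter.style.haveILetI false
set_option synthInstance.maxHeartbeats 400000

noncomputable section

open ModularCurve AlgebraicCurve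

namespace Fermat.Agent.H58.ORD

open Fermat.Agent.H72.FF Fermat.Agent.H18.ORD Fermat.Agent.H84.ORD Fermat.Agent.H27.ESD

/-- The Riemann genus is transported along an equality of intermediate fields. -/
theorem nn_genusFF_of_eq {K L : Type} [Field K] [Field L] [Algebra K L]
    (E E' : IntermediateField K L) (h : E = E') :
    @genusFF K ↥E _ _ E.toSubalgebra.algebra = genusFF K ↥E' := by
  subst h
  rfl

/-- the genus of the components is at most the genus of `X₀(M)` -/
theorem nn_genus_component_le (M p : ℕ) [NeZero M] [NeZero p] (hp : p.Prime) (hpM : ¬ p ∣ M)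
    (A : ValuationSubring Qb) (hA : A.LiesOverPrime p) :
    genusFF (kRes A) (NmF (M * p) A) ≤
      genusFF (AlgebraicClosure ℚ) ↥(modularFunctionFieldBar M) := by
  haveI : Fact p.Prime := ⟨hp⟩
  have h1 : genusFF (kRes A) (NmF (M * p) A) =
      genusFF (kRes A) ↥(modularFunctionFieldFullC (kRes A) M) :=
    nn_genusFF_of_eq _ _ (Fermat.Agent.H92.ORD.b1_nmResField_eq M p hp hpM A hA)
  rw [h1]
  exact Fermat.Agent.H18.genusFF_modL_le M p hpM A hA

/-- **Nonempty nodes from [NC]** (`genusFF` form). -/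
theorem nmNode_nonempty_of_genusFF {M p : ℕ} [NeZero M] [NeZero p]
    (A : ValuationSubring Qb) (h : NmSetup M p A)
    (hNC : genusFF Qb (FLb (M * p)) + 1 ≤
      genusFF (kRes A) (NmF (M * p) A) + genusFF (kRes A) (NmF (M * p) A) +
        Nat.card (NmNode M p h.cop A)) :
    Nonempty (NmNode M p h.cop A) := by
  by_contra hne
  rw [not_nonempty_iff] at hne
  have hcard : Nat.card (NmNode M p h.cop A) = 0 := Nat.card_of_isEmpty
  have hpM : ¬ p ∣ M := fun hd =>
    h.prime.one_lt.ne' (Nat.Coprime.eq_one_of_dvd h.cop.symm hd)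
  have hM : 0 < M := Nat.pos_of_ne_zero (NeZero.ne M)
  have h2 := nn_genus_component_le M p h.prime hpM A h.liesOver
  have h3 := genusFF_eq_genusFormula M
  have h4 := genusFF_eq_genusFormula (M * p)
  have h5 := ga_two_mul_genusFormula_lt M p hM h.four h.prime hpM
  rw [hcard, add_zero] at hNC
  have hNC' : genusFF (AlgebraicClosure ℚ) ↥(modularFunctionFieldBar (M * p)) + 1 ≤
      genusFF (AlgebraicClosure ℚ) ↥(modularFunctionFieldBar M) +
        genusFF (AlgebraicClosure ℚ) ↥(modularFunctionFieldBar M) :=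
    le_trans hNC (Nat.add_le_add h2 h2)
  have hQ : ((genusFF (AlgebraicClosure ℚ) ↥(modularFunctionFieldBar (M * p)) : ℕ) : ℚ) + 1 ≤
      (genusFF (AlgebraicClosure ℚ) ↥(modularFunctionFieldBar M) : ℚ) +
        (genusFF (AlgebraicClosure ℚ) ↥(modularFunctionFieldBar M) : ℚ) := by
    exact_mod_cast hNC'
  rw [h3, h4] at hQ
  linarith

/-- **Nonempty nodes from [NC]** (Riemann-package form, the shape of
`Fermat.Agent.H18.ORD.NodalNCStatement`). -/
theorem nmNode_nonempty_of_nc {M p : ℕ} [NeZero M] [NeZero p]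
    (A : ValuationSubring Qb) (h : NmSetup M p A) (g goo g0 : ℕ)
    (R : RiemannPackage Qb (FLb (M * p)) g)
    (Roo : RiemannPackage (kRes A) (NmF (M * p) A) goo)
    (R0 : RiemannPackage (kRes A) (NmF (M * p) A) g0)
    (hNC : g + 1 ≤ goo + g0 + Nat.card (NmNode M p h.cop A)) :
    Nonempty (NmNode M p h.cop A) := by
  have hpM : ¬ p ∣ M := fun hd =>
    h.prime.one_lt.ne' (Nat.Coprime.eq_one_of_dvd h.cop.symm hd)
  obtain ⟨hac, hrr⟩ := Fermat.Agent.H92.ORD.b1_rrHyp_nmF M p h.prime hpM A h.liesOver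
  haveI := hac
  haveI : Infinite (kRes A) := IsAlgClosed.instInfinite
  have Rk : RiemannPackage (kRes A) (NmF (M * p) A) (genusFF (kRes A) (NmF (M * p) A)) :=
    Fermat.Agent.H58.riemannPackage_of_rrHyp hrr
  have RL : RiemannPackage Qb (FLb (M * p)) (genusFF Qb (FLb (M * p))) :=
    Fermat.Agent.H58.riemannPackage_of_rrHyp
      (Fermat.Agent.H58.rrHyp_modularFunctionFieldBar (M * p))
  have e1 : g = genusFF Qb (FLb (M * p)) := RiemannPackage.genus_unique R RL
  have e2 : goo = genusFF (kRes A) (NmF (M * p) A) := RiemannPackage.genus_unique Roo Rk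
  have e3 : g0 = genusFF (kRes A) (NmF (M * p) A) := RiemannPackage.genus_unique R0 Rk
  rw [e1, e2, e3] at hNC
  exact nmNode_nonempty_of_genusFF A h hNC

/-- **Nonempty nodes from the genus equality** of helper92's assembly. -/
theorem nmNode_nonempty_of_genusEq {M p : ℕ} [NeZero M] [NeZero p]
    (hE : Fermat.Agent.H92.ORD.NmGenusEqStatement M p)
    (A : ValuationSubring Qb) (h : NmSetup M p A) : Nonempty (NmNode M p h.cop A) :=
  nmNode_nonempty_of_genusFF A h (le_of_eq (hE A h))

/-- **[NODES] from finiteness and the genus equality.** -/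
theorem nmNodes_of_finite_genusEq {M p : ℕ} [NeZero M] [NeZero p]
    (hF : ∀ (A : ValuationSubring Qb) (h : NmSetup M p A), Finite (NmNode M p h.cop A))
    (hE : Fermat.Agent.H92.ORD.NmGenusEqStatement M p) :
    Fermat.Agent.H92.ORD.NmNodesStatement M p :=
  fun A h => ⟨hF A h, nmNode_nonempty_of_genusEq hE A h⟩

end Fermat.Agent.H58.ORD

end
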