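import Fermat.Agent.H18.ORD.NodalDefs

/-!
# P-ORD, block B1-LATT (helper58): the pair lattice property (M5) from the two single ones

For a nodal datum `G` (two valuation rings `V_∞`, `V_0` of `F = ℚ̄(X₀(N))` with reductions
`red_∞`, `red_0`), the field `lattice` of `Fermat.Agent.H18.ORD.NodalRvHyp` (sup-norm lattice
property in dimension two) follows from

* `const_oo`, `const_zero`, `red_const_oo`, `red_const_zero` (constants), and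
* the SINGLE-valuation lattice properties `LatticeOo G`, `LatticeZero G` : a non-constant `f`
  has a normalisation `α f + β ∈ V_c` (`α ≠ 0`) with NON-CONSTANT reduction

by a three-case valuation argument (no geometry): with `F₁ = α₁ f + β₁ ∈ V_∞`,
`G₀ = α₂ f + β₂ = α₀ F₁ + β₀ ∈ V_0` and `γ = β₀ / α₀`:

1. `γ ∈ A`, `α₀⁻¹ ∈ A` : `u = F₁`, `red_∞ u` is not constant;
2. `α₀ ∈ A`, `β₀ ∈ A` : `u = α₀ F₁ = G₀ - β₀`, `red_0 u` is not constant;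
3. otherwise `γ ∉ A`, `β₀ ∉ A` : `u = 1 + γ⁻¹ F₁ = β₀⁻¹ G₀` reduces to the pair `(1, 0)`.
-/

set_option autoImplicit false

noncomputable section

open AlgebraicCurve ModularCurve

namespace Fermat.Agent.H58.ORD

open Fermat.Agent.H72.FF Fermat.Agent.H18.ORD

variable {N : ℕ} {A : ValuationSubring Qb} {Foo F0 : Type} [Field Foo] [Field F0]
  [Algebra (kRes A) Foo] [Algebra (kRes A) F0] {ι : Type}

/-- Single-valuation lattice property at `V_∞` : a non-constant function has a normalisation in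
`V_∞` with non-constant reduction. -/
def LatticeOo (G : NodalData N A Foo F0 ι) : Prop :=
  ∀ f : FLb N, (∀ c : Qb, f ≠ algebraMap Qb (FLb N) c) →
    ∃ (α β : Qb) (h : algebraMap Qb (FLb N) α * f + algebraMap Qb (FLb N) β ∈ G.Voo), α ≠ 0 ∧
      ¬ ∃ κ : kRes A, G.redOo ⟨_, h⟩ = algebraMap (kRes A) Foo κ

/-- Single-valuation lattice property at `V_0`. -/
def LatticeZero (G : NodalData N A Foo F0 ι) : Prop :=
  ∀ f : FLb N, (∀ c : Qb, f ≠ algebraMap Qb (FLb N) c) →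
    ∃ (α β : Qb) (h : algebraMap Qb (FLb N) α * f + algebraMap Qb (FLb N) β ∈ G.V0), α ≠ 0 ∧
      ¬ ∃ κ : kRes A, G.red0 ⟨_, h⟩ = algebraMap (kRes A) F0 κ

/-- The statement of the field `lattice` of `NodalRvHyp`. -/
def PairLattice (G : NodalData N A Foo F0 ι) : Prop :=
  ∀ f : FLb N, (∀ c : Qb, f ≠ algebraMap Qb (FLb N) c) →
    ∃ (α β : Qb) (h : algebraMap Qb (FLb N) α * f + algebraMap Qb (FLb N) β ∈ G.Voo)
      (h0 : algebraMap Qb (FLb N) α * f + algebraMap Qb (FLb N) β ∈ G.V0), α ≠ 0 ∧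
      ¬ ∃ κ : kRes A, G.redOo ⟨_, h⟩ = algebraMap (kRes A) Foo κ ∧
        G.red0 ⟨_, h0⟩ = algebraMap (kRes A) F0 κ

section General

variable {R S' : Type*} [Ring R] [Semiring S']

theorem pl_map_congr (V : Subring R) (φ : V →+* S') {a b : R} (hab : a = b)
    (ha : a ∈ V) (hb : b ∈ V) : φ ⟨a, ha⟩ = φ ⟨b, hb⟩ := by
  subst hab; rfl

theorem pl_map_one_add (V : Subring R) (φ : V →+* S') {x : R} (hx : x ∈ V)
    (h : 1 + x ∈ V) : φ ⟨1 + x, h⟩ = 1 + φ ⟨x, hx⟩ := by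
  have e : (⟨1 + x, h⟩ : V) = 1 + ⟨x, hx⟩ := rfl
  rw [e, map_add, map_one]

theorem pl_map_add (V : Subring R) (φ : V →+* S') {x y : R} (hx : x ∈ V) (hy : y ∈ V)
    (h : x + y ∈ V) : φ ⟨x + y, h⟩ = φ ⟨x, hx⟩ + φ ⟨y, hy⟩ := by
  have e : (⟨x + y, h⟩ : V) = ⟨x, hx⟩ + ⟨y, hy⟩ := rfl
  rw [e, map_add]

theorem pl_map_mul (V : Subring R) (φ : V →+* S') {x y : R} (hx : x ∈ V) (hy : y ∈ V)
    (h : x * y ∈ V) : φ ⟨x * y, h⟩ = φ ⟨x, hx⟩ * φ ⟨y, hy⟩ := by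
  have e : (⟨x * y, h⟩ : V) = ⟨x, hx⟩ * ⟨y, hy⟩ := rfl
  rw [e, map_mul]

end General

theorem pl_redOo_congr (G : NodalData N A Foo F0 ι) {a b : FLb N} (hab : a = b)
    (ha : a ∈ G.Voo) (hb : b ∈ G.Voo) : G.redOo ⟨a, ha⟩ = G.redOo ⟨b, hb⟩ := by
  subst hab; rfl

theorem pl_red0_congr (G : NodalData N A Foo F0 ι) {a b : FLb N} (hab : a = b)
    (ha : a ∈ G.V0) (hb : b ∈ G.V0) : G.red0 ⟨a, ha⟩ = G.red0 ⟨b, hb⟩ := by
  subst hab; rfl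

theorem pl_inv_mem_nonunits {c : Qb} (hc : c ∉ A) : c⁻¹ ∈ A.nonunits := by
  rw [ValuationSubring.mem_nonunits_iff]
  have h1 : ¬ A.valuation c ≤ 1 := fun h => hc ((A.valuation_le_one_iff c).mp h)
  have h2 : 1 < A.valuation c := not_le.mp h1
  rw [map_inv₀]
  exact (inv_lt_one₀ (lt_trans zero_lt_one h2)).mpr h2

theorem pl_residue_eq_zero {c : Qb} (hc : c ∈ A.nonunits) (hcA : c ∈ A) :
    IsLocalRing.residue A ⟨c, hcA⟩ = 0 := by
  rw [IsLocalRing.residue_eq_zero_iff]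
  obtain ⟨h, hm⟩ := ValuationSubring.mem_nonunits_iff_exists_mem_maximalIdeal.mp hc
  exact hm

theorem pl_mem_of_nonunits {c : Qb} (hc : c ∈ A.nonunits) : c ∈ A :=
  (ValuationSubring.mem_nonunits_iff_exists_mem_maximalIdeal.mp hc).1

/-- reduction at `V_∞` of `c * v`, `c ∈ A` -/
theorem pl_redOo_const_mul (G : NodalData N A Foo F0 ι)
    (hcoo : ∀ c : Qb, algebraMap Qb (FLb N) c ∈ G.Voo ↔ c ∈ A)
    (hroo : ∀ (c : A) (h : algebraMap Qb (FLb N) (c : Qb) ∈ G.Voo),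
      G.redOo ⟨_, h⟩ = algebraMap (kRes A) Foo (IsLocalRing.residue A c))
    {c : Qb} (hc : c ∈ A) {v : FLb N} (hv : v ∈ G.Voo)
    (h : algebraMap Qb (FLb N) c * v ∈ G.Voo) :
    G.redOo ⟨_, h⟩ =
      algebraMap (kRes A) Foo (IsLocalRing.residue A ⟨c, hc⟩) * G.redOo ⟨v, hv⟩ := by
  have h1 : algebraMap Qb (FLb N) c ∈ G.Voo := (hcoo c).mpr hc
  rw [pl_map_mul G.Voo G.redOo h1 hv h, hroo ⟨c, hc⟩ h1]

/-- reduction at `V_0` of `c * v`, `c ∈ A` -/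
theorem pl_red0_const_mul (G : NodalData N A Foo F0 ι)
    (hc0 : ∀ c : Qb, algebraMap Qb (FLb N) c ∈ G.V0 ↔ c ∈ A)
    (hr0 : ∀ (c : A) (h : algebraMap Qb (FLb N) (c : Qb) ∈ G.V0),
      G.red0 ⟨_, h⟩ = algebraMap (kRes A) F0 (IsLocalRing.residue A c))
    {c : Qb} (hc : c ∈ A) {v : FLb N} (hv : v ∈ G.V0)
    (h : algebraMap Qb (FLb N) c * v ∈ G.V0) :
    G.red0 ⟨_, h⟩ =
      algebraMap (kRes A) F0 (IsLocalRing.residue A ⟨c, hc⟩) * G.red0 ⟨v, hv⟩ := by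
  have h1 : algebraMap Qb (FLb N) c ∈ G.V0 := (hc0 c).mpr hc
  rw [pl_map_mul G.V0 G.red0 h1 hv h, hr0 ⟨c, hc⟩ h1]

/-- **(M5) from the single-valuation lattice properties.** -/
theorem pairLattice_of_single (G : NodalData N A Foo F0 ι)
    (hcoo : ∀ c : Qb, algebraMap Qb (FLb N) c ∈ G.Voo ↔ c ∈ A)
    (hc0 : ∀ c : Qb, algebraMap Qb (FLb N) c ∈ G.V0 ↔ c ∈ A)
    (hroo : ∀ (c : A) (h : algebraMap Qb (FLb N) (c : Qb) ∈ G.Voo),
      G.redOo ⟨_, h⟩ = algebraMap (kRes A) Foo (IsLocalRing.residue A c))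
    (hr0 : ∀ (c : A) (h : algebraMap Qb (FLb N) (c : Qb) ∈ G.V0),
      G.red0 ⟨_, h⟩ = algebraMap (kRes A) F0 (IsLocalRing.residue A c))
    (hLoo : LatticeOo G) (hL0 : LatticeZero G) : PairLattice G := by
  intro f hf
  obtain ⟨α₁, β₁, h1, hα₁, hx⟩ := hLoo f hf
  obtain ⟨α₂, β₂, h2, hα₂, hy⟩ := hL0 f hf
  -- `G₀ = α₀ F₁ + β₀`
  set F₁ : FLb N := algebraMap Qb (FLb N) α₁ * f + algebraMap Qb (FLb N) β₁ with hF₁
  set G₀ : FLb N := algebraMap Qb (FLb N) α₂ * f + algebraMap Qb (FLb N) β₂ with hG₀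
  set α₀ : Qb := α₂ / α₁ with hα₀
  set β₀ : Qb := β₂ - α₂ * β₁ / α₁ with hβ₀
  have hα₀ne : α₀ ≠ 0 := div_ne_zero hα₂ hα₁
  have hrel : G₀ = algebraMap Qb (FLb N) α₀ * F₁ + algebraMap Qb (FLb N) β₀ := by
    rw [hG₀, hF₁, hα₀, hβ₀]
    simp only [map_sub, map_div₀, map_mul]
    have hne : algebraMap Qb (FLb N) α₁ ≠ 0 := by
      rw [Ne, map_eq_zero]; exact hα₁
    field_simp
    ring
  by_cases hc1 : β₀ / α₀ ∈ A ∧ α₀⁻¹ ∈ A
  · -- case 1 : `u = F₁`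
    obtain ⟨hγ, hαi⟩ := hc1
    have hF₁eq : F₁ = algebraMap Qb (FLb N) α₀⁻¹ * G₀ - algebraMap Qb (FLb N) (β₀ / α₀) := by
      rw [hrel]
      simp only [map_div₀, map_inv₀]
      have hne : algebraMap Qb (FLb N) α₀ ≠ 0 := by
        rw [Ne, map_eq_zero]; exact hα₀ne
      field_simp
      ring
    have h0 : F₁ ∈ G.V0 := by
      rw [hF₁eq]
      exact G.V0.sub_mem (G.V0.mul_mem ((hc0 _).mpr hαi) h2) ((hc0 _).mpr hγ)
    refine ⟨α₁, β₁, h1, h0, hα₁, ?_⟩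
    rintro ⟨κ, hκ, -⟩
    exact hx ⟨κ, hκ⟩
  by_cases hc2 : α₀ ∈ A ∧ β₀ ∈ A
  · -- case 2 : `u = α₀ F₁ = G₀ - β₀`
    obtain ⟨hαA, hβA⟩ := hc2
    have hu : algebraMap Qb (FLb N) α₂ * f + algebraMap Qb (FLb N) (β₂ - β₀) =
        algebraMap Qb (FLb N) α₀ * F₁ := by
      have := hrel
      rw [hG₀] at this
      rw [map_sub]
      linear_combination this
    have hu' : algebraMap Qb (FLb N) α₂ * f + algebraMap Qb (FLb N) (β₂ - β₀) =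
        G₀ - algebraMap Qb (FLb N) β₀ := by
      rw [hG₀, map_sub]; ring
    have hβ0mem : algebraMap Qb (FLb N) β₀ ∈ G.V0 := (hc0 _).mpr hβA
    have h : algebraMap Qb (FLb N) α₂ * f + algebraMap Qb (FLb N) (β₂ - β₀) ∈ G.Voo := by
      rw [hu]
      exact G.Voo.mul_mem ((hcoo _).mpr hαA) h1
    have h0 : algebraMap Qb (FLb N) α₂ * f + algebraMap Qb (FLb N) (β₂ - β₀) ∈ G.V0 := by
      rw [hu']
      exact G.V0.sub_mem h2 hβ0mem
    refine ⟨α₂, β₂ - β₀, h, h0, hα₂, ?_⟩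
    rintro ⟨κ, -, hκ⟩
    apply hy
    refine ⟨κ + IsLocalRing.residue A ⟨β₀, hβA⟩, ?_⟩
    have e0 : G₀ = (algebraMap Qb (FLb N) α₂ * f + algebraMap Qb (FLb N) (β₂ - β₀)) +
        algebraMap Qb (FLb N) β₀ := by
      rw [hu']; ring
    rw [pl_map_congr G.V0 G.red0 e0 h2 (G.V0.add_mem h0 hβ0mem),
      pl_map_add G.V0 G.red0 h0 hβ0mem, hκ, hr0 ⟨β₀, hβA⟩ hβ0mem, map_add]
  · -- case 3 : `u = 1 + γ⁻¹ F₁ = β₀⁻¹ G₀`
    have hβ₀A : β₀ ∉ A := by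
      intro hβA
      have hαA : α₀ ∉ A := fun h => hc2 ⟨h, hβA⟩
      have hαi : α₀⁻¹ ∈ A := pl_mem_of_nonunits (pl_inv_mem_nonunits hαA)
      apply hc1
      refine ⟨?_, hαi⟩
      rw [div_eq_mul_inv]
      exact A.mul_mem _ _ hβA hαi
    have hγA : β₀ / α₀ ∉ A := by
      intro hγ
      have hαi : α₀⁻¹ ∉ A := fun h => hc1 ⟨hγ, h⟩
      have hαA : α₀ ∈ A := by
        have := pl_mem_of_nonunits (pl_inv_mem_nonunits hαi)
        rwa [inv_inv] at this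
      apply hβ₀A
      have : β₀ = β₀ / α₀ * α₀ := by field_simp
      rw [this]
      exact A.mul_mem _ _ hγ hαA
    have hβ₀ne : β₀ ≠ 0 := fun h => hβ₀A (h ▸ A.zero_mem)
    have hγn : (β₀ / α₀)⁻¹ ∈ A.nonunits := pl_inv_mem_nonunits hγA
    have hβn : β₀⁻¹ ∈ A.nonunits := pl_inv_mem_nonunits hβ₀A
    have hγm : (β₀ / α₀)⁻¹ ∈ A := pl_mem_of_nonunits hγn
    have hβm : β₀⁻¹ ∈ A := pl_mem_of_nonunits hβn
    -- the element
    have hu : algebraMap Qb (FLb N) ((β₀ / α₀)⁻¹ * α₁) * f +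
        algebraMap Qb (FLb N) (1 + (β₀ / α₀)⁻¹ * β₁) =
        1 + algebraMap Qb (FLb N) (β₀ / α₀)⁻¹ * F₁ := by
      rw [hF₁]
      simp only [map_add, map_mul, map_one]
      ring
    have hu' : algebraMap Qb (FLb N) ((β₀ / α₀)⁻¹ * α₁) * f +
        algebraMap Qb (FLb N) (1 + (β₀ / α₀)⁻¹ * β₁) =
        algebraMap Qb (FLb N) β₀⁻¹ * G₀ := by
      rw [hu, hrel]
      simp only [map_div₀, map_inv₀]
      have hne : algebraMap Qb (FLb N) α₀ ≠ 0 := by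
        rw [Ne, map_eq_zero]; exact hα₀ne
      have hne' : algebraMap Qb (FLb N) β₀ ≠ 0 := by
        rw [Ne, map_eq_zero]; exact hβ₀ne
      field_simp
      ring
    have hm1 : algebraMap Qb (FLb N) (β₀ / α₀)⁻¹ * F₁ ∈ G.Voo :=
      G.Voo.mul_mem ((hcoo _).mpr hγm) h1
    have hm2 : algebraMap Qb (FLb N) β₀⁻¹ * G₀ ∈ G.V0 :=
      G.V0.mul_mem ((hc0 _).mpr hβm) h2
    have h : algebraMap Qb (FLb N) ((β₀ / α₀)⁻¹ * α₁) * f +
        algebraMap Qb (FLb N) (1 + (β₀ / α₀)⁻¹ * β₁) ∈ G.Voo := by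
      rw [hu]
      exact G.Voo.add_mem G.Voo.one_mem hm1
    have h0 : algebraMap Qb (FLb N) ((β₀ / α₀)⁻¹ * α₁) * f +
        algebraMap Qb (FLb N) (1 + (β₀ / α₀)⁻¹ * β₁) ∈ G.V0 := by
      rw [hu']
      exact hm2
    have hαne : (β₀ / α₀)⁻¹ * α₁ ≠ 0 :=
      mul_ne_zero (inv_ne_zero (div_ne_zero hβ₀ne hα₀ne)) hα₁
    refine ⟨(β₀ / α₀)⁻¹ * α₁, 1 + (β₀ / α₀)⁻¹ * β₁, h, h0, hαne, ?_⟩
    rintro ⟨κ, hκ1, hκ2⟩
    -- `red_∞ u = 1`
    have r1 : G.redOo ⟨_, h⟩ = 1 := by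
      rw [pl_map_congr G.Voo G.redOo hu h (G.Voo.add_mem G.Voo.one_mem hm1),
        pl_map_one_add G.Voo G.redOo hm1, pl_redOo_const_mul G hcoo hroo hγm h1 hm1,
        pl_residue_eq_zero hγn hγm, map_zero, zero_mul, add_zero]
    -- `red_0 u = 0`
    have r2 : G.red0 ⟨_, h0⟩ = 0 := by
      rw [pl_map_congr G.V0 G.red0 hu' h0 hm2, pl_red0_const_mul G hc0 hr0 hβm h2 hm2,
        pl_residue_eq_zero hβn hβm, map_zero, zero_mul]
    rw [r1] at hκ1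
    rw [r2] at hκ2
    have hκ0 : κ = 0 := by
      have : algebraMap (kRes A) F0 κ = algebraMap (kRes A) F0 0 := by rw [← hκ2, map_zero]
      exact (algebraMap (kRes A) F0).injective this
    rw [hκ0, map_zero] at hκ1
    exact one_ne_zero hκ1

end Fermat.Agent.H58.ORD

end
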