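import Fermat.Agent.H58.ORD.PairLattice
import Fermat.Agent.H58.ORD.GaussLatticeOne

/-!
# P-ORD, block B1-LATT (helper58): (M5) and the constant fields for a Gauss pair

`IsGaussPair ℓ G emb∞ emb0 W` records the SHAPE of the concrete nodal datum of block B1:

* `V_∞` is the Gauss ring `Fermat.Agent.H66.gaussOBar N A`, and `red_∞` is the coefficientwise
  reduction `Fermat.Agent.H66.gaussRedBar N A` (read in `k((q))` through `emb∞ : F_∞ → k((q))`);
* `V_0 = W⁻¹ V_∞` and `red_0 = red_∞ ∘ W` (read through `emb0 : F_0 → k((q))`) for a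
  `ℚ̄`-algebra endomorphism `W` of `F = ℚ̄(X₀(N))` (Atkin–Lehner).

Nothing else about `G` (nodes, specialisation) is used.  For such a pair:

* `IsGaussPair.const_oo`, `const_zero`, `red_const_oo`, `red_const_zero` : the four constant
  fields of `NodalRvHyp`;
* `IsGaussPair.latticeOo`, `latticeZero` : the single-valuation lattice properties;
* `IsGaussPair.lattice` : **(M5)**, the field `lattice` of `NodalRvHyp`, verbatim.
-/

set_option autoImplicit false
set_option synthInstance.maxHeartbeats 400000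
set_option linter.unusedSectionVars false

noncomputable section

open AlgebraicCurve ModularCurve

namespace Fermat.Agent.H58.ORD

open Fermat.Agent.H72.FF Fermat.Agent.H18.ORD

variable {N : ℕ} {A : ValuationSubring Qb} {Foo F0 : Type} [Field Foo] [Field F0]
  [Algebra (kRes A) Foo] [Algebra (kRes A) F0] {ι : Type}

/-- The shape of the concrete nodal datum: two Gauss rings exchanged by `W`. -/
structure IsGaussPair (G : NodalData N A Foo F0 ι)
    (embOo : Foo →ₐ[kRes A] LaurentSeries (kRes A))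
    (emb0 : F0 →ₐ[kRes A] LaurentSeries (kRes A))
    (W : FLb N →ₐ[Qb] FLb N) : Prop where
  voo : ∀ u : FLb N, u ∈ G.Voo ↔ u ∈ Fermat.Agent.H66.gaussOBar N A
  redOo : ∀ (u : FLb N) (h : u ∈ G.Voo) (h' : u ∈ Fermat.Agent.H66.gaussOBar N A),
    embOo (G.redOo ⟨u, h⟩) = Fermat.Agent.H66.gaussRedBar N A ⟨u, h'⟩
  v0 : ∀ u : FLb N, u ∈ G.V0 ↔ W u ∈ Fermat.Agent.H66.gaussOBar N A
  red0 : ∀ (u : FLb N) (h : u ∈ G.V0) (h' : W u ∈ Fermat.Agent.H66.gaussOBar N A),
    emb0 (G.red0 ⟨u, h⟩) = Fermat.Agent.H66.gaussRedBar N A ⟨W u, h'⟩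

namespace IsGaussPair

variable {G : NodalData N A Foo F0 ι} {embOo : Foo →ₐ[kRes A] LaurentSeries (kRes A)}
  {emb0 : F0 →ₐ[kRes A] LaurentSeries (kRes A)} {W : FLb N →ₐ[Qb] FLb N}

theorem const_oo (H : IsGaussPair G embOo emb0 W) (c : Qb) :
    algebraMap Qb (FLb N) c ∈ G.Voo ↔ c ∈ A := by
  rw [H.voo]
  exact Fermat.Agent.H66.algebraMap_mem_gaussOBar_iff N A c

theorem const_zero (H : IsGaussPair G embOo emb0 W) (c : Qb) :
    algebraMap Qb (FLb N) c ∈ G.V0 ↔ c ∈ A := by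
  rw [H.v0, W.commutes]
  exact Fermat.Agent.H66.algebraMap_mem_gaussOBar_iff N A c

theorem red_const_oo (H : IsGaussPair G embOo emb0 W) (c : A)
    (h : algebraMap Qb (FLb N) (c : Qb) ∈ G.Voo) :
    G.redOo ⟨_, h⟩ = algebraMap (kRes A) Foo (IsLocalRing.residue A c) := by
  apply embOo.toRingHom.injective
  show embOo _ = embOo _
  rw [H.redOo _ h ((Fermat.Agent.H66.algebraMap_mem_gaussOBar_iff N A _).mpr c.2),
    Fermat.Agent.H66.gaussRedBar_algebraMap N A c.2, embOo.commutes]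

theorem red_const_zero (H : IsGaussPair G embOo emb0 W) (c : A)
    (h : algebraMap Qb (FLb N) (c : Qb) ∈ G.V0) :
    G.red0 ⟨_, h⟩ = algebraMap (kRes A) F0 (IsLocalRing.residue A c) := by
  apply emb0.toRingHom.injective
  show emb0 _ = emb0 _
  have hm : algebraMap Qb (FLb N) (c : Qb) ∈ Fermat.Agent.H66.gaussOBar N A :=
    (Fermat.Agent.H66.algebraMap_mem_gaussOBar_iff N A _).mpr c.2
  have hW : W (algebraMap Qb (FLb N) (c : Qb)) = algebraMap Qb (FLb N) (c : Qb) :=
    W.commutes _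
  have hm' : W (algebraMap Qb (FLb N) (c : Qb)) ∈ Fermat.Agent.H66.gaussOBar N A := by
    rw [hW]; exact hm
  rw [H.red0 _ h hm', emb0.commutes, ← Fermat.Agent.H66.gaussRedBar_algebraMap N A c.2]
  congr 1
  exact Subtype.ext hW

/-- the single-valuation lattice property at `V_∞` -/
theorem latticeOo [NeZero N] (H : IsGaussPair G embOo emb0 W) (ℓ : ℕ) [Fact ℓ.Prime]
    (hA : A.LiesOverPrime ℓ) : LatticeOo G := by
  intro f hf
  obtain ⟨α, β, h, hα, hnc⟩ := gauss_lattice_one N ℓ A hA f hf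
  refine ⟨α, β, (H.voo _).mpr h, hα, ?_⟩
  rintro ⟨κ, hκ⟩
  apply hnc
  refine ⟨κ, ?_⟩
  rw [← H.redOo _ ((H.voo _).mpr h) h, hκ, embOo.commutes]

/-- the single-valuation lattice property at `V_0` -/
theorem latticeZero [NeZero N] (H : IsGaussPair G embOo emb0 W) (ℓ : ℕ) [Fact ℓ.Prime]
    (hA : A.LiesOverPrime ℓ) : LatticeZero G := by
  intro f hf
  have hWf : ∀ c : Qb, W f ≠ algebraMap Qb (FLb N) c := by
    intro c hc
    apply hf c
    apply W.toRingHom.injective
    show W f = W _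
    rw [hc, W.commutes]
  obtain ⟨α, β, h, hα, hnc⟩ := gauss_lattice_one N ℓ A hA (W f) hWf
  have hW : W (algebraMap Qb (FLb N) α * f + algebraMap Qb (FLb N) β) =
      algebraMap Qb (FLb N) α * W f + algebraMap Qb (FLb N) β := by
    rw [map_add, map_mul, W.commutes, W.commutes]
  have hm' : W (algebraMap Qb (FLb N) α * f + algebraMap Qb (FLb N) β) ∈
      Fermat.Agent.H66.gaussOBar N A := by
    rw [hW]; exact h
  refine ⟨α, β, (H.v0 _).mpr hm', hα, ?_⟩
  rintro ⟨κ, hκ⟩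
  apply hnc
  refine ⟨κ, ?_⟩
  have e1 := H.red0 _ ((H.v0 _).mpr hm') hm'
  rw [hκ, emb0.commutes] at e1
  rw [e1]
  congr 1
  exact Subtype.ext hW.symm

/-- **(M5)** : the field `lattice` of `NodalRvHyp` for a Gauss pair. -/
theorem lattice [NeZero N] (H : IsGaussPair G embOo emb0 W) (ℓ : ℕ) [Fact ℓ.Prime]
    (hA : A.LiesOverPrime ℓ) :
    ∀ f : FLb N, (∀ c : Qb, f ≠ algebraMap Qb (FLb N) c) →
      ∃ (α β : Qb) (h : algebraMap Qb (FLb N) α * f + algebraMap Qb (FLb N) β ∈ G.Voo)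
        (h0 : algebraMap Qb (FLb N) α * f + algebraMap Qb (FLb N) β ∈ G.V0), α ≠ 0 ∧
        ¬ ∃ κ : kRes A, G.redOo ⟨_, h⟩ = algebraMap (kRes A) Foo κ ∧
          G.red0 ⟨_, h0⟩ = algebraMap (kRes A) F0 κ :=
  pairLattice_of_single G H.const_oo H.const_zero H.red_const_oo H.red_const_zero
    (H.latticeOo ℓ hA) (H.latticeZero ℓ hA)

end IsGaussPair

end Fermat.Agent.H58.ORD

end
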